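import Mathlib.Analysis.Complex.LocallyUniformLimit
import Mathlib.Analysis.Complex.TaylorSeries
import Mathlib.Analysis.Calculus.IteratedDeriv.Lemmas
import Mathlib.RingTheory.PowerSeries.Basic
import Mathlib.Analysis.Analytic.Constructions

set_option autoImplicit false

open Filter Topology Metric

noncomputable section

namespace Fermat.Agent.S24.H18

/-- The Taylor series at `0` of a function `ℂ → ℂ`, as a formal power series. -/
def taylor0 (f : ℂ → ℂ) : PowerSeries ℂ :=
  PowerSeries.mk fun m => ((m.factorial : ℂ))⁻¹ * iteratedDeriv m f 0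

theorem coeff_taylor0 (f : ℂ → ℂ) (m : ℕ) :
    PowerSeries.coeff m (taylor0 f) = ((m.factorial : ℂ))⁻¹ * iteratedDeriv m f 0 := by
  simp [taylor0]

theorem taylor0_congr {f g : ℂ → ℂ} (h : f =ᶠ[𝓝 0] g) : taylor0 f = taylor0 g := by
  ext m
  rw [coeff_taylor0, coeff_taylor0, h.iteratedDeriv_eq]

theorem taylor0_mul {f g : ℂ → ℂ} (hf : AnalyticAt ℂ f 0) (hg : AnalyticAt ℂ g 0) :
    taylor0 (f * g) = taylor0 f * taylor0 g := by
  ext n
  simp only [coeff_taylor0, iteratedDeriv_mul hf.contDiffAt hg.contDiffAt, Finset.mul_sum,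
    PowerSeries.coeff_mul, Finset.Nat.sum_antidiagonal_eq_sum_range_succ_mk, Nat.succ_eq_add_one]
  refine Finset.sum_congr rfl fun i hi => ?_
  rw [Nat.cast_choose _ (by grind)]
  field_simp [Nat.factorial_ne_zero]

theorem taylor0_add {f g : ℂ → ℂ} (hf : AnalyticAt ℂ f 0) (hg : AnalyticAt ℂ g 0) :
    taylor0 (f + g) = taylor0 f + taylor0 g := by
  ext m
  simp [coeff_taylor0, iteratedDeriv_add hf.contDiffAt hg.contDiffAt, mul_add]

theorem taylor0_sub {f g : ℂ → ℂ} (hf : AnalyticAt ℂ f 0) (hg : AnalyticAt ℂ g 0) :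
    taylor0 (f - g) = taylor0 f - taylor0 g := by
  ext m
  simp [coeff_taylor0, iteratedDeriv_sub hf.contDiffAt hg.contDiffAt, mul_sub]

theorem taylor0_const (c : ℂ) : taylor0 (fun _ => c) = PowerSeries.C c := by
  ext m
  rw [coeff_taylor0, PowerSeries.coeff_C]
  rcases m with _ | m
  · simp
  · simp [iteratedDeriv_const]

theorem taylor0_one : taylor0 (1 : ℂ → ℂ) = 1 := by
  have : (1 : ℂ → ℂ) = fun _ => (1 : ℂ) := rfl
  rw [this, taylor0_const]; simp

theorem taylor0_pow_id (m : ℕ) : taylor0 (fun q : ℂ => q ^ m) = PowerSeries.X ^ m := by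
  ext n
  rw [coeff_taylor0, PowerSeries.coeff_X_pow, iteratedDeriv_fun_pow_zero]
  split_ifs with h
  · subst h; field_simp [Nat.factorial_ne_zero]
  · simp

theorem taylor0_pow {f : ℂ → ℂ} (hf : AnalyticAt ℂ f 0) (n : ℕ) :
    taylor0 (f ^ n) = taylor0 f ^ n := by
  induction n with
  | zero => simpa using taylor0_one
  | succ n ih => rw [pow_succ, taylor0_mul (hf.pow n) hf, ih, pow_succ]

theorem taylor0_prod {ι : Type*} (s : Finset ι) (f : ι → ℂ → ℂ)
    (hf : ∀ i ∈ s, AnalyticAt ℂ (f i) 0) :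
    taylor0 (∏ i ∈ s, f i) = ∏ i ∈ s, taylor0 (f i) := by
  classical
  induction s using Finset.induction_on with
  | empty => simpa using taylor0_one
  | insert a s ha ih =>
    rw [Finset.prod_insert ha, Finset.prod_insert ha,
      taylor0_mul (hf a (Finset.mem_insert_self a s))
        (Finset.analyticAt_prod _ fun i hi => hf i (Finset.mem_insert_of_mem hi)),
      ih fun i hi => hf i (Finset.mem_insert_of_mem hi)]

/-- The Taylor series converges to the function on the open unit disc. -/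
theorem hasSum_taylor0 {f : ℂ → ℂ} (hf : DifferentiableOn ℂ f (ball 0 1)) {q : ℂ}
    (hq : ‖q‖ < 1) :
    HasSum (fun m : ℕ => PowerSeries.coeff m (taylor0 f) * q ^ m) (f q) := by
  have := Complex.hasSum_taylorSeries_on_ball hf (z := q) (by simpa using hq)
  have h2 : (fun m : ℕ => PowerSeries.coeff m (taylor0 f) * q ^ m)
      = fun n : ℕ => ((n.factorial : ℂ))⁻¹ • (q - 0) ^ n • iteratedDeriv n f 0 := by
    funext m
    rw [coeff_taylor0, sub_zero, smul_eq_mul, smul_eq_mul]
    ring
  rw [h2]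
  exact this

/-- Locally uniform convergence of holomorphic functions on an open set implies locally uniform
convergence of all iterated derivatives. -/
theorem tendstoLocallyUniformlyOn_iteratedDeriv {ι : Type*} {φ : Filter ι} [φ.NeBot]
    {F : ι → ℂ → ℂ} {f : ℂ → ℂ} {U : Set ℂ} (hU : IsOpen U)
    (hf : TendstoLocallyUniformlyOn F f φ U) (hF : ∀ᶠ i in φ, DifferentiableOn ℂ (F i) U)
    (k : ℕ) :
    TendstoLocallyUniformlyOn (fun i => iteratedDeriv k (F i)) (iteratedDeriv k f) φ U ∧
      ∀ᶠ i in φ, DifferentiableOn ℂ (iteratedDeriv k (F i)) U := by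
  induction k with
  | zero =>
    refine ⟨?_, ?_⟩
    · simpa only [iteratedDeriv_zero] using hf
    · simpa only [iteratedDeriv_zero] using hF
  | succ k ih =>
    obtain ⟨h1, h2⟩ := ih
    refine ⟨?_, ?_⟩
    · have := h1.deriv h2 hU
      simpa only [iteratedDeriv_succ, Function.comp_def] using this
    · filter_upwards [h2] with i hi
      rw [iteratedDeriv_succ]
      exact hi.deriv hU

/-- Taylor coefficients at `0` are continuous for locally uniform convergence of holomorphic
functions. -/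
theorem tendsto_coeff_taylor0 {ι : Type*} {φ : Filter ι} [φ.NeBot]
    {F : ι → ℂ → ℂ} {f : ℂ → ℂ} {U : Set ℂ} (hU : IsOpen U) (h0 : (0 : ℂ) ∈ U)
    (hf : TendstoLocallyUniformlyOn F f φ U) (hF : ∀ᶠ i in φ, DifferentiableOn ℂ (F i) U)
    (k : ℕ) :
    Tendsto (fun i => PowerSeries.coeff k (taylor0 (F i))) φ
      (𝓝 (PowerSeries.coeff k (taylor0 f))) := by
  have h := ((tendstoLocallyUniformlyOn_iteratedDeriv hU hf hF k).1).tendsto_at h0
  simp only [coeff_taylor0]
  exact h.const_mul _

end Fermat.Agent.S24.H18
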