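/-
S24 (helper18), analysis package JQ: the analytic modular invariant `J = E₄³/Δ` on the upper
half plane has the formal `q`-expansion `jq` of the Prelude.
-/
import Mathlib.NumberTheory.ModularForms.Discriminant
import Mathlib.NumberTheory.ModularForms.LevelOne.DimensionFormula
import Mathlib.RingTheory.PowerSeries.PiTopology
import Fermat.Prelude.Def_ModularCurve_JqCoeff
import Fermat.Agent.S24.H18.Taylor

set_option autoImplicit false

open Filter Topology Metric UpperHalfPlane ModularForm EisensteinSeries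
open scoped MatrixGroups PowerSeries.WithPiTopology

noncomputable section

namespace Fermat.Agent.S24.H18

open ModularCurve

local notation "𝕢" => Function.Periodic.qParam

/-- The Euler function `q ↦ ∏ (1 - q^(n+1))` on the unit disc. -/
def eulerFun (q : ℂ) : ℂ := ∏' n : ℕ, (1 - q ^ (n + 1))

theorem differentiableOn_eulerFun : DifferentiableOn ℂ eulerFun (ball 0 1) :=
  differentiableOn_tprod_one_sub_pow

theorem eulerFun_ne_zero {q : ℂ} (hq : ‖q‖ < 1) : eulerFun q ≠ 0 := by
  unfold eulerFun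
  have h := tprod_one_add_ne_zero_of_summable (f := fun n : ℕ => -q ^ (n + 1)) ?_ ?_
  · simpa [sub_eq_add_neg] using h
  · intro i hi
    have h1 : q ^ (i + 1) = 1 := by
      have : (1 : ℂ) + -q ^ (i + 1) = 0 := hi
      linear_combination -this
    have h2 : ‖q‖ ^ (i + 1) = 1 := by rw [← norm_pow, h1, norm_one]
    have h3 : ‖q‖ ^ (i + 1) < 1 := pow_lt_one₀ (norm_nonneg _) hq (by omega)
    linarith
  · simpa using (summable_nat_add_iff 1).mpr (summable_geometric_of_lt_one (norm_nonneg _) hq)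

theorem analyticAt_eulerFun : AnalyticAt ℂ eulerFun 0 :=
  differentiableOn_eulerFun.analyticAt (isOpen_ball.mem_nhds (mem_ball_self one_pos))

/-- The Taylor series of the Euler function is the formal Euler product. -/
theorem taylor0_eulerFun : taylor0 eulerFun = etaProd.map (Int.castRingHom ℂ) := by
  ext k
  have hF : TendstoLocallyUniformlyOn
      (fun (s : Finset ℕ) (q : ℂ) => ∏ n ∈ s, (1 - q ^ (n + 1))) eulerFun atTop (ball 0 1) :=
    multipliableLocallyUniformlyOn_one_sub_pow.hasProdLocallyUniformlyOn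
  have hdiff : ∀ s : Finset ℕ,
      DifferentiableOn ℂ (fun q : ℂ => ∏ n ∈ s, (1 - q ^ (n + 1))) (ball 0 1) := fun s => by
    simpa [Finset.prod_fn] using
      DifferentiableOn.finsetProd (𝕜 := ℂ) (u := s) (f := fun (n : ℕ) (q : ℂ) => 1 - q ^ (n + 1))
        (s := ball 0 1) (fun _ _ => by fun_prop)
  have h1 := tendsto_coeff_taylor0 isOpen_ball (mem_ball_self one_pos) hF
    (Eventually.of_forall hdiff) k
  have h2 : ∀ s : Finset ℕ, taylor0 (fun q : ℂ => ∏ n ∈ s, (1 - q ^ (n + 1)))
      = (∏ n ∈ s, ((1 : PowerSeries ℤ) - PowerSeries.X ^ (n + 1))).map (Int.castRingHom ℂ) := by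
    intro s
    have hfun : (fun q : ℂ => ∏ n ∈ s, (1 - q ^ (n + 1)))
        = ∏ n ∈ s, ((1 : ℂ → ℂ) - fun q : ℂ => q ^ (n + 1)) := by
      funext q
      simp [Finset.prod_apply]
    rw [hfun, taylor0_prod, map_prod]
    · refine Finset.prod_congr rfl fun n _ => ?_
      rw [taylor0_sub, taylor0_one, taylor0_pow_id]
      · simp
      · exact analyticAt_const
      · exact (analyticAt_id).pow _
    · intro n _
      exact analyticAt_const.sub ((analyticAt_id).pow _)
  have h3 : Tendsto (fun s : Finset ℕ => ∏ n ∈ s, ((1 : PowerSeries ℤ) - PowerSeries.X ^ (n + 1)))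
      atTop (𝓝 etaProd) :=
    (PowerSeries.WithPiTopology.multipliable_one_sub_X_pow ℤ).hasProd
  have h4 : Tendsto (fun s : Finset ℕ =>
      PowerSeries.coeff k (∏ n ∈ s, ((1 : PowerSeries ℤ) - PowerSeries.X ^ (n + 1))))
      atTop (𝓝 (PowerSeries.coeff k etaProd)) :=
    ((PowerSeries.WithPiTopology.continuous_coeff ℤ k).tendsto _).comp h3
  have h5 : Tendsto (fun s : Finset ℕ =>
      ((PowerSeries.coeff k (∏ n ∈ s, ((1 : PowerSeries ℤ) - PowerSeries.X ^ (n + 1))) : ℤ) : ℂ))
      atTop (𝓝 ((PowerSeries.coeff k etaProd : ℤ) : ℂ)) :=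
    ((continuous_of_discreteTopology (f := fun z : ℤ => (z : ℂ))).tendsto _).comp h4
  refine tendsto_nhds_unique h1 ?_
  have h6 : (fun s : Finset ℕ => PowerSeries.coeff k
      (taylor0 (fun q : ℂ => ∏ n ∈ s, (1 - q ^ (n + 1)))))
      = fun s : Finset ℕ => ((PowerSeries.coeff k
          (∏ n ∈ s, ((1 : PowerSeries ℤ) - PowerSeries.X ^ (n + 1))) : ℤ) : ℂ) := by
    funext s
    rw [h2 s, PowerSeries.coeff_map]
    rfl
  rw [h6, PowerSeries.coeff_map]
  exact h5

/-- The `q`-expansion of `E₄` is the formal series `eisenstein4` of the Prelude. -/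
theorem qExpansion_E₄ : qExpansion 1 E₄ = eisenstein4.map (Int.castRingHom ℂ) := by
  ext n
  rw [E_qExpansion_coeff (k := 4) (by norm_num) ⟨2, rfl⟩ n, PowerSeries.coeff_map]
  have hb : bernoulli 4 = -1 / 30 := by decide +kernel
  simp only [eisenstein4, PowerSeries.coeff_mk]
  split_ifs with h
  · simp
  · rw [hb]
    simp [ArithmeticFunction.sigma_apply]
    norm_num

theorem taylor0_cuspFunction_E₄ :
    taylor0 (cuspFunction 1 E₄) = eisenstein4.map (Int.castRingHom ℂ) := by
  rw [← qExpansion_E₄]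
  rfl

theorem differentiableOn_cuspFunction_E₄ : DifferentiableOn ℂ (cuspFunction 1 E₄) (ball 0 1) := by
  intro q hq
  exact (ModularFormClass.differentiableAt_cuspFunction E₄ one_pos one_mem_strictPeriods_SL
    (by simpa using hq)).differentiableWithinAt

theorem analyticAt_cuspFunction_E₄ : AnalyticAt ℂ (cuspFunction 1 E₄) 0 :=
  ModularFormClass.analyticAt_cuspFunction_zero E₄ one_pos one_mem_strictPeriods_SL

/-- The function `q ↦ q · J` on the unit disc, where `J = E₄³ / Δ`. -/
def jDisc (q : ℂ) : ℂ := cuspFunction 1 E₄ q ^ 3 / eulerFun q ^ 24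

theorem differentiableOn_jDisc : DifferentiableOn ℂ jDisc (ball 0 1) := by
  unfold jDisc
  refine DifferentiableOn.div (differentiableOn_cuspFunction_E₄.pow 3)
    (differentiableOn_eulerFun.pow 24) ?_
  intro q hq
  exact pow_ne_zero _ (eulerFun_ne_zero (by simpa using hq))

theorem analyticAt_jDisc : AnalyticAt ℂ jDisc 0 :=
  differentiableOn_jDisc.analyticAt (isOpen_ball.mem_nhds (mem_ball_self one_pos))

/-- The Taylor series of `q ↦ q · J` is the integral power series `jNum` of the Prelude. -/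
theorem taylor0_jDisc : taylor0 jDisc = jNum.map (Int.castRingHom ℂ) := by
  have hmul : jDisc * eulerFun ^ 24 =ᶠ[𝓝 0] cuspFunction 1 E₄ ^ 3 := by
    filter_upwards [isOpen_ball.mem_nhds (mem_ball_self (x := (0 : ℂ)) one_pos)] with q hq
    have hne : eulerFun q ^ 24 ≠ 0 := pow_ne_zero _ (eulerFun_ne_zero (by simpa using hq))
    simp only [Pi.mul_apply, Pi.pow_apply, jDisc]
    exact div_mul_cancel₀ _ hne
  have h1 := taylor0_congr hmul
  rw [taylor0_mul analyticAt_jDisc (analyticAt_eulerFun.pow 24), taylor0_pow analyticAt_eulerFun,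
    taylor0_pow analyticAt_cuspFunction_E₄, taylor0_eulerFun, taylor0_cuspFunction_E₄] at h1
  have h2 : (etaProd.map (Int.castRingHom ℂ)) ^ 24 * dedekindEtaUnitInv.map (Int.castRingHom ℂ)
      = 1 := by
    rw [← map_pow, ← map_mul]
    have := dedekindEtaUnit_mul_inv
    rw [dedekindEtaUnit] at this
    rw [this, map_one]
  calc taylor0 jDisc
      = taylor0 jDisc * ((etaProd.map (Int.castRingHom ℂ)) ^ 24
          * dedekindEtaUnitInv.map (Int.castRingHom ℂ)) := by rw [h2, mul_one]
    _ = (taylor0 jDisc * (etaProd.map (Int.castRingHom ℂ)) ^ 24)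
          * dedekindEtaUnitInv.map (Int.castRingHom ℂ) := by ring
    _ = jNum.map (Int.castRingHom ℂ) := by
        rw [h1, jNum, map_mul, map_pow]

theorem discriminant_eq_qParam_mul_eulerFun (τ : ℍ) :
    discriminant τ = 𝕢 1 τ * eulerFun (𝕢 1 τ) ^ 24 := by
  rw [discriminant_eq_q_prod, eulerFun]
  congr 1
  have hq : ‖𝕢 1 (τ : ℂ)‖ < 1 := Function.Periodic.norm_qParam_lt_one one_pos τ.im_pos
  exact (multipliable_one_sub_pow hq).tprod_pow 24

theorem jDisc_qParam (τ : ℍ) :
    jDisc (𝕢 1 τ) = 𝕢 1 τ * (E₄ τ ^ 3 / discriminant τ) := by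
  have hq0 : 𝕢 1 (τ : ℂ) ≠ 0 := by simp [Function.Periodic.qParam]
  have hq : ‖𝕢 1 (τ : ℂ)‖ < 1 := Function.Periodic.norm_qParam_lt_one one_pos τ.im_pos
  have hne : eulerFun (𝕢 1 τ) ^ 24 ≠ 0 := pow_ne_zero _ (eulerFun_ne_zero hq)
  have hE : cuspFunction 1 E₄ (𝕢 1 τ) = E₄ τ :=
    (eq_cuspFunction τ one_ne_zero
      (SlashInvariantFormClass.periodic_comp_ofComplex E₄ one_mem_strictPeriods_SL)).symm ▸ rfl
  rw [discriminant_eq_qParam_mul_eulerFun, jDisc, hE]
  field_simp

/-- **The analytic `J = E₄³/Δ` has the formal `q`-expansion `q⁻¹ · jNum`.** -/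
theorem hasSum_jNum (τ : ℍ) :
    HasSum (fun n : ℕ => ((PowerSeries.coeff n jNum : ℤ) : ℂ) * 𝕢 1 τ ^ n)
      (𝕢 1 τ * (E₄ τ ^ 3 / discriminant τ)) := by
  have hq : ‖𝕢 1 (τ : ℂ)‖ < 1 := Function.Periodic.norm_qParam_lt_one one_pos τ.im_pos
  have h := hasSum_taylor0 differentiableOn_jDisc hq
  rw [taylor0_jDisc, jDisc_qParam] at h
  simpa [PowerSeries.coeff_map] using h

/-- The `q`-expansion of `E₄` as a convergent series. -/
theorem hasSum_eisenstein4 (τ : ℍ) :
    HasSum (fun n : ℕ => ((PowerSeries.coeff n eisenstein4 : ℤ) : ℂ) * 𝕢 1 τ ^ n) (E₄ τ) := by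
  have h := ModularForm.hasSum_qExpansion (f := E₄) one_pos one_mem_strictPeriods_SL τ
  rw [qExpansion_E₄] at h
  simpa [PowerSeries.coeff_map] using h

/-- The Euler product as a convergent series. -/
theorem hasSum_etaProd {q : ℂ} (hq : ‖q‖ < 1) :
    HasSum (fun n : ℕ => ((PowerSeries.coeff n etaProd : ℤ) : ℂ) * q ^ n) (∏' n : ℕ, (1 - q ^ (n + 1))) := by
  have h := hasSum_taylor0 differentiableOn_eulerFun hq
  rw [taylor0_eulerFun] at h
  simpa [PowerSeries.coeff_map, eulerFun] using h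

end Fermat.Agent.S24.H18
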