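/-
S24 (helper18), analysis package AN-JQ (backup seat): the analytic `J = E₄³/Δ` has the Laurent
expansion `jqModC ℂ` at `i∞`, in the `HasExp` shape of `ModDefs.lean`.
-/
import Fermat.Agent.S24.ModDefs
import Fermat.Agent.S24.H18.JqExp

set_option autoImplicit false

open Filter Topology UpperHalfPlane ModularForm EisensteinSeries ModularCurve
open scoped MatrixGroups

noncomputable section

namespace Fermat.Agent.S24.H18

open Fermat.Agent.S24

local notation "𝕢" => Function.Periodic.qParam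

theorem coeff_jqModC_sub_one (k : ℕ) :
    (jqModC ℂ).coeff ((k : ℤ) - 1) = ((PowerSeries.coeff k jNum : ℤ) : ℂ) := by
  rw [jqModC, HahnSeries.coeff_single_mul, one_mul, sub_neg_eq_add, sub_add_cancel,
    HahnSeries.ofPowerSeries_apply_coeff, PowerSeries.coeff_map]
  rfl

theorem coeff_jqModC_of_lt {n : ℤ} (hn : n < -1) : (jqModC ℂ).coeff n = 0 := by
  rw [jqModC, HahnSeries.coeff_single_mul, one_mul]
  exact ofPowerSeries_coeff_of_neg _ (by omega)

/-- The Laurent expansion of `J` at `i∞`, valid at every point of the upper half plane. -/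
theorem hasSum_jqModC (τ : ℍ) :
    HasSum (fun n : ℤ => (jqModC ℂ).coeff n * 𝕢 1 (τ : ℂ) ^ n) (Jfun τ) := by
  have hq0 : 𝕢 1 (τ : ℂ) ≠ 0 := by simp [Function.Periodic.qParam]
  have h := (hasSum_jNum τ).mul_right (𝕢 1 (τ : ℂ))⁻¹
  have hJ : 𝕢 1 (τ : ℂ) * (E₄ τ ^ 3 / discriminant τ) * (𝕢 1 (τ : ℂ))⁻¹ = Jfun τ := by
    rw [Jfun]; field_simp
  rw [hJ] at h
  set e : ℕ → ℤ := fun k => (k : ℤ) - 1 with he
  have hinj : Function.Injective e := fun a b hab => by
    simp only [he] at hab; omega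
  have hzero : ∀ n ∉ Set.range e, (jqModC ℂ).coeff n * 𝕢 1 (τ : ℂ) ^ n = 0 := by
    intro n hn
    have hlt : n < -1 := by
      by_contra hcon
      exact hn ⟨(n + 1).toNat, by simp only [he]; omega⟩
    rw [coeff_jqModC_of_lt hlt, zero_mul]
  rw [← hinj.hasSum_iff hzero]
  have hfun : ((fun n : ℤ => (jqModC ℂ).coeff n * 𝕢 1 (τ : ℂ) ^ n) ∘ e)
      = fun k : ℕ => ((PowerSeries.coeff k jNum : ℤ) : ℂ) * 𝕢 1 (τ : ℂ) ^ k * (𝕢 1 (τ : ℂ))⁻¹ := by
    funext k
    simp only [Function.comp_apply, he]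
    rw [coeff_jqModC_sub_one, zpow_sub₀ hq0, zpow_natCast, zpow_one]
    ring
  rw [hfun]
  exact h

/-- **AN-JQ, final shape**: `J` has the expansion `jqModC ℂ` in the parameter `q = e^{2πiτ}`. -/
theorem hasExp_Jfun : HasExp atImInfty (qN 1) Jfun (jqModC ℂ) := by
  refine Eventually.of_forall fun τ => ?_
  have h := hasSum_jqModC τ
  simpa [qN] using h

end Fermat.Agent.S24.H18
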