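/-
S24 (helper18): expansions at `i∞` of the generators `J(dτ)` of the modular function field, and
the comparison with the formal generators `jF N d`.
-/
import Fermat.Agent.S24.H18.JExp
import Fermat.Prelude.Thm_ModularCurve_coeffMap_qExpand

set_option autoImplicit false

open Filter Topology UpperHalfPlane ModularForm EisensteinSeries ModularCurve
open scoped MatrixGroups

noncomputable section

namespace Fermat.Agent.S24.H18

open Fermat.Agent.S24

local notation "𝕢" => Function.Periodic.qParam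

theorem qParam_levelMul (d : ℕ) [NeZero d] (τ : ℍ) :
    𝕢 1 ((levelMul d τ : ℍ) : ℂ) = 𝕢 1 (τ : ℂ) ^ d := by
  simp only [Function.Periodic.qParam, coe_levelMul]
  rw [← Complex.exp_nat_mul]
  congr 1
  simp only [Complex.ofReal_one, div_one]
  ring

/-- The Laurent expansion of `J(dτ)` at `i∞`, valid at every point of the upper half plane. -/
theorem hasSum_Jd (d : ℕ) [NeZero d] (τ : ℍ) :
    HasSum (fun n : ℤ => (qExpand ℂ d (jqModC ℂ)).coeff n * 𝕢 1 (τ : ℂ) ^ n) (Jd d τ) := by
  have h := hasSum_jqModC (levelMul d τ)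
  rw [qParam_levelMul] at h
  have hd : (d : ℤ) ≠ 0 := by exact_mod_cast NeZero.ne d
  set e : ℤ → ℤ := fun n => (d : ℤ) * n with he
  have hinj : Function.Injective e := fun a b hab => mul_left_cancel₀ hd hab
  have hzero : ∀ n ∉ Set.range e, (qExpand ℂ d (jqModC ℂ)).coeff n * 𝕢 1 (τ : ℂ) ^ n = 0 := by
    intro n hn
    rw [qExpand_coeff_of_not_dvd d _ (fun ⟨m, hm⟩ => hn ⟨m, hm.symm⟩), zero_mul]
  rw [← hinj.hasSum_iff hzero]
  have hfun : ((fun n : ℤ => (qExpand ℂ d (jqModC ℂ)).coeff n * 𝕢 1 (τ : ℂ) ^ n) ∘ e)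
      = fun n : ℤ => (jqModC ℂ).coeff n * (𝕢 1 (τ : ℂ) ^ d) ^ n := by
    funext n
    simp only [Function.comp_apply, he]
    rw [qExpand_coeff_mul, zpow_mul, zpow_natCast]
  rw [hfun]
  exact h

theorem hasExp_Jd (d : ℕ) [NeZero d] :
    HasExp atImInfty (qN 1) (Jd d) (qExpand ℂ d (jqModC ℂ)) := by
  refine Eventually.of_forall fun τ => ?_
  have h := hasSum_Jd d τ
  simpa [qN] using h

/-- The formal generator `jF N d`, with coefficients mapped to `ℂ` by `iota`, is the expansion of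
`J(dτ)`. -/
theorem coeffMap_iota_jF (N : ℕ) (d : N.divisors) :
    coeffMap iota ((jF N d : FF N) : LaurentSeries Kbar) = qExpand ℂ (d : ℕ) (jqModC ℂ) := by
  show coeffMap iota (coeffEmb Kbar (qExpand ℚ (d : ℕ) jq)) = _
  rw [coeffEmb, coeffMap_coeffMap, coeffMap_qExpand, ← jqModC_rat]
  congr 1
  exact map_jqModC (iota.comp (algebraMap ℚ Kbar))

/-- The generator `J(dτ)` has the expansion given by the formal generator `jF N d`. -/
theorem hasSum_jF (N : ℕ) (d : N.divisors) (τ : ℍ) :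
    HasSum (fun n : ℤ => (coeffMap iota ((jF N d : FF N) : LaurentSeries Kbar)).coeff n
      * 𝕢 1 (τ : ℂ) ^ n) (Jd (d : ℕ) τ) := by
  rw [coeffMap_iota_jF]
  exact hasSum_Jd (d : ℕ) τ

end Fermat.Agent.S24.H18
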