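/-
S24 (helper18): every polynomial in the generators `J(dτ)` has, at every point of the upper half
plane, the convergent Laurent expansion given by the corresponding element of the formal
function field (coefficients mapped to `ℂ` by `iota`).
-/
import Fermat.Agent.S24.H18.JdExp

set_option autoImplicit false

open Filter Topology UpperHalfPlane ModularForm EisensteinSeries ModularCurve
open scoped MatrixGroups

noncomputable section

namespace Fermat.Agent.S24.H18

open Fermat.Agent.S24

local notation "𝕢" => Function.Periodic.qParam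

/-- Finite-support description of the coefficients of a product of Laurent series. -/
theorem hasSum_coeff_mul (L M : LaurentSeries ℂ) (k : ℤ) :
    HasSum (fun i : ℤ => L.coeff i * M.coeff (k - i)) ((L * M).coeff k) := by
  classical
  rw [HahnSeries.coeff_mul]
  set A := Finset.antidiagonal L.isPWO_support M.isPWO_support k with hA
  have himg : ∑ ij ∈ A, L.coeff ij.1 * M.coeff ij.2
      = ∑ i ∈ A.image Prod.fst, L.coeff i * M.coeff (k - i) := by
    rw [Finset.sum_image]
    · refine Finset.sum_congr rfl fun ij hij => ?_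
      have h := (Finset.mem_antidiagonal.mp hij).2.2
      rw [show k - ij.1 = ij.2 by omega]
    · intro x hx y hy hxy
      have h1 := (Finset.mem_antidiagonal.mp hx).2.2
      have h2 := (Finset.mem_antidiagonal.mp hy).2.2
      exact Prod.ext hxy (by omega)
  rw [himg]
  refine hasSum_sum_of_ne_finset_zero fun i hi => ?_
  by_contra hne
  have h1 : L.coeff i ≠ 0 := fun h => hne (by rw [h, zero_mul])
  have h2 : M.coeff (k - i) ≠ 0 := fun h => hne (by rw [h, mul_zero])
  refine hi (Finset.mem_image.mpr ⟨(i, k - i), ?_, rfl⟩)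
  exact Finset.mem_antidiagonal.mpr ⟨h1, h2, by simp⟩

/-- The reindexing `(k, i) ↦ (i, k - i)` of `ℤ × ℤ`. -/
def shearEquiv : ℤ × ℤ ≃ ℤ × ℤ where
  toFun p := (p.2, p.1 - p.2)
  invFun p := (p.1 + p.2, p.1)
  left_inv p := by ext <;> simp
  right_inv p := by ext <;> simp

/-- Cauchy product over `ℤ` for (absolutely) summable complex families. -/
theorem hasSum_cauchy_int {f g c : ℤ → ℂ} {a b : ℂ}
    (hf : HasSum f a) (hg : HasSum g b)
    (hc : ∀ k, HasSum (fun i : ℤ => f i * g (k - i)) (c k)) :
    HasSum c (a * b) := by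
  have hsL : Summable (fun n : ℤ => ‖f n‖) := hf.summable.norm
  have hsM : Summable (fun n : ℤ => ‖g n‖) := hg.summable.norm
  have hsum : Summable (fun x : ℤ × ℤ => f x.1 * g x.2) :=
    summable_mul_of_summable_norm (f := f) (g := g) hsL hsM
  have hprod : HasSum (fun x : ℤ × ℤ => f x.1 * g x.2) (a * b) :=
    HasSum.mul (f := f) (g := g) hf hg hsum
  have h2 : HasSum ((fun x : ℤ × ℤ => f x.1 * g x.2) ∘ shearEquiv) (a * b) :=
    (shearEquiv.hasSum_iff (f := fun x : ℤ × ℤ => f x.1 * g x.2)).mpr hprod
  exact HasSum.prod_fiberwise (f := (fun x : ℤ × ℤ => f x.1 * g x.2) ∘ shearEquiv) h2 hc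

/-- Evaluation of convergent Laurent series is multiplicative. -/
theorem hasSum_laurent_mul {L M : LaurentSeries ℂ} {q a b : ℂ} (hq : q ≠ 0)
    (hL : HasSum (fun n : ℤ => L.coeff n * q ^ n) a)
    (hM : HasSum (fun n : ℤ => M.coeff n * q ^ n) b) :
    HasSum (fun n : ℤ => (L * M).coeff n * q ^ n) (a * b) := by
  refine hasSum_cauchy_int (f := fun n : ℤ => L.coeff n * q ^ n)
    (g := fun n : ℤ => M.coeff n * q ^ n) (c := fun n : ℤ => (L * M).coeff n * q ^ n) hL hM ?_
  intro k
  have h3 := (hasSum_coeff_mul L M k).mul_right (q ^ k)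
  have hfun : (fun i : ℤ => L.coeff i * M.coeff (k - i) * q ^ k)
      = fun i : ℤ => (L.coeff i * q ^ i) * (M.coeff (k - i) * q ^ (k - i)) := by
    funext i
    have : q ^ k = q ^ i * q ^ (k - i) := by
      rw [← zpow_add₀ hq]; congr 1; omega
    rw [this]; ring
  rw [hfun] at h3
  exact h3

theorem hasSum_laurent_add {L M : LaurentSeries ℂ} {q a b : ℂ}
    (hL : HasSum (fun n : ℤ => L.coeff n * q ^ n) a)
    (hM : HasSum (fun n : ℤ => M.coeff n * q ^ n) b) :
    HasSum (fun n : ℤ => (L + M).coeff n * q ^ n) (a + b) := by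
  have h := hL.add hM
  have hfun : (fun n : ℤ => (L + M).coeff n * q ^ n)
      = fun n : ℤ => L.coeff n * q ^ n + M.coeff n * q ^ n := by
    funext n
    rw [HahnSeries.coeff_add, add_mul]
  rw [hfun]
  exact h

theorem hasSum_laurent_C (c q : ℂ) :
    HasSum (fun n : ℤ => (HahnSeries.C c : LaurentSeries ℂ).coeff n * q ^ n) c := by
  have h := hasSum_single (f := fun n : ℤ => (HahnSeries.C c : LaurentSeries ℂ).coeff n * q ^ n) 0
    (fun n hn => by
      show (HahnSeries.C c : LaurentSeries ℂ).coeff n * q ^ n = 0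
      rw [HahnSeries.C_apply, HahnSeries.coeff_single_of_ne hn, zero_mul])
  simpa [HahnSeries.C_apply] using h

theorem hasSum_laurent_zero (q : ℂ) :
    HasSum (fun n : ℤ => (0 : LaurentSeries ℂ).coeff n * q ^ n) 0 := by
  have : (fun n : ℤ => (0 : LaurentSeries ℂ).coeff n * q ^ n) = fun _ => 0 := by
    funext n; simp
  rw [this]; exact hasSum_zero

/-- The coefficientwise image under `iota` of an element of the formal function field. -/
def expC (N : ℕ) (f : FF N) : LaurentSeries ℂ := coeffMap iota (f : LaurentSeries Kbar)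

theorem expC_add (N : ℕ) (f g : FF N) : expC N (f + g) = expC N f + expC N g := by
  show coeffMap iota (((f + g : FF N) : LaurentSeries Kbar)) = _
  rw [show ((f + g : FF N) : LaurentSeries Kbar) = (f : LaurentSeries Kbar) + g from rfl, map_add]
  rfl

theorem expC_mul (N : ℕ) (f g : FF N) : expC N (f * g) = expC N f * expC N g := by
  show coeffMap iota (((f * g : FF N) : LaurentSeries Kbar)) = _
  rw [show ((f * g : FF N) : LaurentSeries Kbar) = (f : LaurentSeries Kbar) * g from rfl, map_mul]
  rfl

theorem expC_zero (N : ℕ) : expC N (0 : FF N) = 0 := by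
  show coeffMap iota (((0 : FF N) : LaurentSeries Kbar)) = _
  rw [show ((0 : FF N) : LaurentSeries Kbar) = 0 from rfl, map_zero]

theorem expC_algebraMap (N : ℕ) (a : Kbar) :
    expC N (algebraMap Kbar (FF N) a) = HahnSeries.C (iota a) := by
  show coeffMap iota (algebraMap Kbar (LaurentSeries Kbar) a) = _
  rw [algebraMap_laurentSeries_eq_single, coeffMap_single]
  rfl

theorem evF_C (N : ℕ) (a : Kbar) : evF N (MvPolynomial.C a) = algebraMap Kbar (FF N) a :=
  MvPolynomial.aeval_C (jF N) a

theorem evF_X (N : ℕ) (d : N.divisors) : evF N (MvPolynomial.X d) = jF N d :=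
  MvPolynomial.aeval_X (jF N) d

theorem evF_add (N : ℕ) (p q : MvPolynomial (N.divisors) Kbar) :
    evF N (p + q) = evF N p + evF N q :=
  (evF N).toRingHom.map_add p q

theorem evF_mul (N : ℕ) (p q : MvPolynomial (N.divisors) Kbar) :
    evF N (p * q) = evF N p * evF N q :=
  (evF N).toRingHom.map_mul p q

theorem Theta_C (N : ℕ) (a : Kbar) (τ : ℍ) : Theta N (MvPolynomial.C a) τ = iota a := by
  simp [Theta]

theorem Theta_X (N : ℕ) (d : N.divisors) : Theta N (MvPolynomial.X d) = Jd (d : ℕ) := by
  simp [Theta]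

/-- **Expansion of polynomials in the `J(dτ)`**: pointwise on the whole upper half plane. -/
theorem hasSum_Theta (N : ℕ) (P : MvPolynomial (N.divisors) Kbar) (τ : ℍ) :
    HasSum (fun n : ℤ => (expC N (evF N P)).coeff n * 𝕢 1 (τ : ℂ) ^ n) (Theta N P τ) := by
  have hq0 : 𝕢 1 (τ : ℂ) ≠ 0 := by simp [Function.Periodic.qParam]
  induction P using MvPolynomial.induction_on with
  | C a =>
    rw [evF_C, expC_algebraMap, Theta_C]
    exact hasSum_laurent_C _ _
  | add p q hp hq =>
    rw [evF_add, expC_add, (Theta N).map_add]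
    exact hasSum_laurent_add hp hq
  | mul_X p d hp =>
    rw [evF_mul, evF_X, expC_mul, (Theta N).map_mul, Theta_X]
    exact hasSum_laurent_mul hq0 hp (hasSum_jF N d τ)

theorem hasExp_Theta (N : ℕ) (P : MvPolynomial (N.divisors) Kbar) :
    HasExp atImInfty (qN 1) (Theta N P) (expC N (evF N P)) := by
  refine Eventually.of_forall fun τ => ?_
  have h := hasSum_Theta N P τ
  simpa [qN] using h

/-- If the formal element vanishes then so does the function. -/
theorem Theta_eq_zero_of_evF_eq_zero (N : ℕ) (P : MvPolynomial (N.divisors) Kbar)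
    (h : evF N P = 0) : Theta N P = 0 := by
  funext τ
  have h1 := hasSum_Theta N P τ
  rw [h, expC_zero] at h1
  exact h1.unique (hasSum_laurent_zero _)

end Fermat.Agent.S24.H18
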